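/-
S15lib / Tors / Core  (helper3)  — Project E, block (TORS)

The abstract valuation lemma behind "no `ℓ`-torsion in the kernel of reduction when `e = 1 < ℓ − 1`":

`H` a set of `A`-valued functions on an abelian group `X`, closed under comultiplication
(`φ(a + b) = Σ ψ_i(a) ψ'_i(b)`), `x ∈ X` with `ℓ x = 0`, `ℓ` an odd prime, and
`v(φ x − φ 0) ≤ v(ℓ)` for all `φ ∈ H`.  Then `φ x = φ 0` for all `φ ∈ H`
(provided the powers of `v(ℓ)` tend to `0`).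

Proof: with `Δ = Δ_[x]` the forward difference, `Δ φ = Σ_i (ψ'_i x − ψ'_i 0) • ψ_i`, hence
`v(Δ^j φ) ≤ c^{jM}` if `v(ψ x − ψ 0) ≤ c^M` for all `ψ ∈ H`; Newton's formula
`φ 0 = φ (ℓ x) = Σ_j C(ℓ, j) Δ^j φ (0)` then gives `v(ℓ (φ x − φ 0)) ≤ max (c^{1 + 2M}, c^{ℓ M})`,
i.e. the bound `c^{M + 1}`.
-/
import Mathlib

set_option autoImplicit false

noncomputable section

namespace Fermat.Agent.S15lib.Tors

open Finset fwdDiff

variable {K : Type*} [Field K] (A : ValuationSubring K)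
variable {X : Type*} [AddCommGroup X]

/-- closure under comultiplication -/
def HasComul (H : Set (X → K)) : Prop :=
  ∀ φ ∈ H, ∃ (n : ℕ) (ψ ψ' : Fin n → X → K), (∀ i, ψ i ∈ H) ∧ (∀ i, ψ' i ∈ H) ∧
    ∀ a b : X, φ (a + b) = ∑ i, ψ i a * ψ' i b

variable {A}

theorem val_natCast_le_one (n : ℕ) : A.valuation (n : K) ≤ 1 :=
  (A.valuation_le_one_iff _).2 (natCast_mem A n)

/-- `Δ_[x] φ = Σ_i (ψ'_i x − ψ'_i 0) • ψ_i` -/
theorem fwdDiff_eq_sum {φ : X → K} {n : ℕ} {ψ ψ' : Fin n → X → K}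
    (h : ∀ a b : X, φ (a + b) = ∑ i, ψ i a * ψ' i b) (x : X) :
    Δ_[x] φ = ∑ i, (ψ' i x - ψ' i 0) • ψ i := by
  funext y
  rw [fwdDiff, h y x, Finset.sum_apply]
  have h0 : φ y = ∑ i, ψ i y * ψ' i 0 := by
    have := h y 0
    rwa [add_zero] at this
  rw [h0, ← Finset.sum_sub_distrib]
  refine Finset.sum_congr rfl fun i _ => ?_
  rw [Pi.smul_apply, smul_eq_mul]
  ring

/-- the iterated differences are small -/
theorem val_fwdDiff_iter_le {H : Set (X → K)} (hint : ∀ φ ∈ H, ∀ y, A.valuation (φ y) ≤ 1)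
    (hcomul : HasComul H) (x : X) {c : A.ValueGroup}
    (hx : ∀ φ ∈ H, A.valuation (φ x - φ 0) ≤ c) :
    ∀ (j : ℕ), ∀ φ ∈ H, ∀ y : X, A.valuation ((Δ_[x])^[j] φ y) ≤ c ^ j := by
  intro j
  induction j with
  | zero =>
    intro φ hφ y
    rw [Function.iterate_zero, id_eq, pow_zero]
    exact hint φ hφ y
  | succ j ih =>
    intro φ hφ y
    obtain ⟨n, ψ, ψ', hψ, hψ', h⟩ := hcomul φ hφ
    rw [Function.iterate_succ_apply, fwdDiff_eq_sum h x, fwdDiff_iter_finsetSum, Finset.sum_apply]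
    refine Valuation.map_sum_le _ fun i _ => ?_
    rw [fwdDiff_iter_const_smul, Pi.smul_apply, smul_eq_mul, map_mul, pow_succ, mul_comm]
    exact mul_le_mul' (ih (ψ i) (hψ i) y) (hx (ψ' i) (hψ' i))

/-- **the improvement step** -/
theorem val_sub_le_succ {H : Set (X → K)} (hint : ∀ φ ∈ H, ∀ y, A.valuation (φ y) ≤ 1)
    (hcomul : HasComul H) {ℓ : ℕ} (hℓ : ℓ.Prime) (hℓ2 : ℓ ≠ 2)
    (hvℓ : A.valuation (ℓ : K) < 1) (hvℓ0 : A.valuation (ℓ : K) ≠ 0)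
    (x : X) (hx : ℓ • x = 0) {M : ℕ} (hM : 1 ≤ M)
    (hbd : ∀ φ ∈ H, A.valuation (φ x - φ 0) ≤ A.valuation (ℓ : K) ^ M) :
    ∀ φ ∈ H, A.valuation (φ x - φ 0) ≤ A.valuation (ℓ : K) ^ (M + 1) := by
  intro φ hφ
  set c := A.valuation (ℓ : K) with hc
  have hc1 : c ≤ 1 := le_of_lt hvℓ
  have hΔ := val_fwdDiff_iter_le hint hcomul x hbd
  have hℓ3 : 3 ≤ ℓ := by
    have := hℓ.two_le
    omega
  obtain ⟨m, rfl⟩ : ∃ m, ℓ = m + 2 := ⟨ℓ - 2, by omega⟩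
  -- Newton's formula
  have hN := shift_eq_sum_fwdDiff_iter x φ (m + 2) 0
  rw [hx, add_zero, Finset.sum_range_succ', Finset.sum_range_succ'] at hN
  simp only [Nat.choose_zero_right, Function.iterate_zero, id_eq, one_smul, zero_add,
    Nat.choose_one_right, Function.iterate_one] at hN
  have hΔ1 : Δ_[x] φ 0 = φ x - φ 0 := by rw [fwdDiff, zero_add]
  rw [hΔ1] at hN
  -- `ℓ (φ x − φ 0) = − Σ_{k < m + 1} C(ℓ, k + 2) Δ^{k + 2} φ 0`
  have hE : ((m + 2 : ℕ) : K) * (φ x - φ 0) =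
      -∑ k ∈ range (m + 1), (m + 2).choose (k + 1 + 1) • (Δ_[x])^[k + 1 + 1] φ 0 := by
    have h1 : ∑ k ∈ range (m + 1), (m + 2).choose (k + 1 + 1) • (Δ_[x])^[k + 1 + 1] φ 0 +
        (m + 2) • (φ x - φ 0) = 0 := by
      exact right_eq_add.1 hN
    rw [nsmul_eq_mul] at h1
    exact eq_neg_of_add_eq_zero_right h1
  have hbound : A.valuation (((m + 2 : ℕ) : K) * (φ x - φ 0)) ≤ c * c ^ (M + 1) := by
    rw [hE, Valuation.map_neg]
    refine Valuation.map_sum_le _ fun k hk => ?_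
    have hk' : k < m + 1 := Finset.mem_range.1 hk
    rw [nsmul_eq_mul, map_mul]
    have hD : A.valuation ((Δ_[x])^[k + 1 + 1] φ 0) ≤ (c ^ M) ^ (k + 1 + 1) := hΔ _ φ hφ 0
    rw [← pow_mul] at hD
    by_cases hkm : k + 2 < m + 2
    · -- `ℓ ∣ C(ℓ, k + 2)`
      obtain ⟨t, ht⟩ := hℓ.dvd_choose_self (k := k + 1 + 1) (by omega) (by omega)
      rw [ht, Nat.cast_mul, map_mul, mul_assoc]
      refine mul_le_mul' le_rfl ?_
      calc A.valuation (t : K) * A.valuation ((Δ_[x])^[k + 1 + 1] φ 0)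
          ≤ 1 * c ^ (M * (k + 1 + 1)) := mul_le_mul' (val_natCast_le_one t) hD
        _ = c ^ (M * (k + 1 + 1)) := one_mul _
        _ ≤ c ^ (M + 1) := pow_le_pow_right_of_le_one' hc1 (by nlinarith)
    · -- `k + 2 = ℓ`
      have hk2 : k + 1 + 1 = m + 2 := by omega
      rw [hk2, Nat.choose_self, Nat.cast_one, map_one, one_mul]
      rw [hk2] at hD
      refine hD.trans ?_
      rw [← pow_succ']
      refine pow_le_pow_right_of_le_one' hc1 ?_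
      nlinarith
  rw [map_mul, ← hc] at hbound
  have hc0 : 0 < c := zero_lt_iff.mpr hvℓ0
  exact le_of_mul_le_mul_left hbound hc0

/-- **all orders** -/
theorem val_sub_le_pow {H : Set (X → K)} (hint : ∀ φ ∈ H, ∀ y, A.valuation (φ y) ≤ 1)
    (hcomul : HasComul H) {ℓ : ℕ} (hℓ : ℓ.Prime) (hℓ2 : ℓ ≠ 2)
    (hvℓ : A.valuation (ℓ : K) < 1) (hvℓ0 : A.valuation (ℓ : K) ≠ 0)
    (x : X) (hx : ℓ • x = 0)
    (hbase : ∀ φ ∈ H, A.valuation (φ x - φ 0) ≤ A.valuation (ℓ : K)) :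
    ∀ M : ℕ, ∀ φ ∈ H, A.valuation (φ x - φ 0) ≤ A.valuation (ℓ : K) ^ (M + 1) := by
  intro M
  induction M with
  | zero =>
    intro φ hφ
    rw [zero_add, pow_one]
    exact hbase φ hφ
  | succ M ih =>
    exact val_sub_le_succ hint hcomul hℓ hℓ2 hvℓ hvℓ0 x hx (by omega) ih

/-- **(TORS), abstract form** -/
theorem eq_of_hasComul {H : Set (X → K)} (hint : ∀ φ ∈ H, ∀ y, A.valuation (φ y) ≤ 1)
    (hcomul : HasComul H) {ℓ : ℕ} (hℓ : ℓ.Prime) (hℓ2 : ℓ ≠ 2)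
    (hvℓ : A.valuation (ℓ : K) < 1) (hvℓ0 : A.valuation (ℓ : K) ≠ 0)
    (harch : ∀ a : K, a ≠ 0 → ∃ n : ℕ, A.valuation (ℓ : K) ^ n ≤ A.valuation a)
    (x : X) (hx : ℓ • x = 0)
    (hbase : ∀ φ ∈ H, A.valuation (φ x - φ 0) ≤ A.valuation (ℓ : K)) :
    ∀ φ ∈ H, φ x = φ 0 := by
  intro φ hφ
  by_contra hne
  have h0 : φ x - φ 0 ≠ 0 := sub_ne_zero.2 hne
  obtain ⟨n, hn⟩ := harch _ h0
  have h1 := val_sub_le_pow hint hcomul hℓ hℓ2 hvℓ hvℓ0 x hx hbase n φ hφ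
  have hc0 : 0 < A.valuation (ℓ : K) := zero_lt_iff.mpr hvℓ0
  have h2 : A.valuation (ℓ : K) ^ (n + 1) < A.valuation (ℓ : K) ^ n := by
    rw [pow_succ]
    calc A.valuation (ℓ : K) ^ n * A.valuation (ℓ : K)
        < A.valuation (ℓ : K) ^ n * 1 := mul_lt_mul_of_pos_left hvℓ (pow_pos hc0 n)
      _ = A.valuation (ℓ : K) ^ n := mul_one _
  exact absurd (hn.trans h1) (not_le.2 h2)

end Fermat.Agent.S15lib.Tors

end
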