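/-
S15lib / Tors / Main  (helper3)  — Project E, block (TORS)

`torsInjStmt : TorsInjStmt`: for an odd prime `ℓ ≠ p` and `A ∣ ℓ` the reduction map is injective on
the rational torsion of `J₀(p)`.

* prime-to-`ℓ` part: S18;
* `ℓ`-part: a rational point `w` of order `ℓ` in the kernel of reduction `K` is inertia-fixed, so the
  functions of the `A0`-order `T.order` of `Γ = ⟨w⟩` (S19lib/F) take values in `A0` at `w` and `0`,
  congruent modulo `𝔪_A ∩ A0 = ℓ A0`; the order is closed under comultiplication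
  (`Coords.exists_comul`), and `Tors/Core.lean` gives `φ w = φ 0` for all `φ`, i.e. `w = 0`.
-/
import Fermat.Agent.S15lib.Iface
import Fermat.Agent.S15lib.Germ
import Fermat.Agent.S15lib.Tors.Core
import Fermat.Agent.S19lib.E.Stmt
import Fermat.Agent.S18
import Fermat.Agent.S37lib.B3.Inst

set_option autoImplicit false
set_option linter.unusedSectionVars false
set_option linter.style.haveILetI false

noncomputable section

namespace Fermat.Agent.S15lib.Tors

open AlgebraicCurve ModularCurve Fermat.Agent.S19lib Fermat.Agent.S19lib.F Fermat.Agent.S19lib.E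
open MvPolynomial

local notation "Qb" => AlgebraicClosure ℚ
local notation "GQ" => (AlgebraicClosure ℚ ≃ₐ[ℚ] AlgebraicClosure ℚ)

section Germ

variable {ℓ : ℕ} [Fact ℓ.Prime] {A : ValuationSubring Qb} (hA : A.LiesOverPrime ℓ)
  {J : Type} [AddCommGroup J] [DistribMulAction GQ J] (G : AnalyticGerm A ℓ J)
  (hc : HasUnramifiedCentres G)

include hA hc in
/-- **no rational point of order `ℓ` in the kernel of reduction** (`ℓ` odd) -/
theorem eq_zero_of_prime_smul (hℓ2 : ℓ ≠ 2) {w : J} (hw : w ∈ G.K) (hfix : ∀ σ : GQ, σ • w = w)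
    (hℓw : ℓ • w = 0) : w = 0 := by
  classical
  have hℓ : ℓ.Prime := Fact.out
  set Γ : AddSubgroup J := AddSubgroup.zmultiples w with hΓdef
  have hfixΓ : ∀ x ∈ Γ, ∀ σ : GQ, σ • x = x := by
    intro x hx σ
    obtain ⟨n, rfl⟩ := AddSubgroup.mem_zmultiples_iff.1 hx
    have := map_zsmul (DistribSMul.toAddMonoidHom J σ) n w
    simp only [DistribSMul.toAddMonoidHom_apply] at this
    rw [this, hfix σ]
  have hst : ∀ σ : GQ, ∀ x ∈ Γ, σ • x ∈ Γ := fun σ x hx => by rw [hfixΓ x hx σ]; exact hx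
  have hfinord : IsOfFinAddOrder w :=
    isOfFinAddOrder_iff_nsmul_eq_zero.2 ⟨ℓ, hℓ.pos, hℓw⟩
  have hfin : (Γ : Set J).Finite := finite_zmultiples.2 hfinord
  haveI : Finite Γ := hfin.to_subtype
  letI : Fintype Γ := Fintype.ofFinite Γ
  letI := subAct Γ hst (IA A)
  let T : Coords A (IA A) Γ (J ⧸ G.K) G.g := coordsOf A Γ (cls G) (tau G hc) hst
    (fun σ hσ x => cls_smul G hc hσ x)
    (fun σ hσ x i => congrFun (tau_smul G hc hσ x) i)
    (fun x i => mSet_subset (tau_mem G hc x i))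
    (fun x y h1 h2 => tau_injOn G hc h1 h2)
  have hD : T.D ∈ A0 A := (mem_fixedRing_iff_mem_A0 A _).1 T.D_mem_fixedRing
  have hDD0 : T.D * T.D ≠ 0 := mul_ne_zero T.D_ne_zero T.D_ne_zero
  -- the group law
  have hadd : T.AddApprox (T.D * T.D) := by
    intro c₁ c₂
    obtain ⟨Φ, hΦ⟩ := add_approx hA G hc hfin hDD0 c₁ c₂
    obtain ⟨Ψ, hΨc, hΨ⟩ := exists_untyped Φ
    choose Q hQ using fun i => exists_typed_of_coeff_mem_A0 A (Ψ i) (hΨc i)
    refine ⟨Q, fun x x' hx hx' i => ?_⟩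
    obtain ⟨a, ha, h⟩ := hΦ (x : J) x.2 (x' : J) x'.2 hx hx' i
    refine ⟨a, ha, ?_⟩
    rw [hQ, hΨ]
    exact h
  have hcadd : ∀ x y : Γ, T.c (x + y) = T.c x + T.c y := fun x y => map_add (cls G) (x : J) (y : J)
  -- the data for the core
  let H : Set (Γ → Qb) := {φ | φ ∈ T.order}
  have hint : ∀ φ ∈ H, ∀ y, A.valuation (φ y) ≤ 1 := fun φ hφ y =>
    (A.valuation_le_one_iff _).2 (T.isIntegralValued_of_mem hφ y)
  have hcomul : HasComul H := fun φ hφ => T.exists_comul hcadd hadd hφ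
  let w' : Γ := ⟨w, AddSubgroup.mem_zmultiples w⟩
  have hw'0 : ℓ • w' = 0 := Subtype.ext (by
    rw [AddSubgroup.coe_nsmul]
    exact hℓw)
  have hvℓ : A.valuation ((ℓ : ℕ) : Qb) < 1 := (A.mem_nonunits_iff).mp hA
  have hℓ0 : ((ℓ : ℕ) : Qb) ≠ 0 := by exact_mod_cast hℓ.ne_zero
  have hvℓ0 : A.valuation ((ℓ : ℕ) : Qb) ≠ 0 := (Valuation.ne_zero_iff _).2 hℓ0
  have hcw : T.c w' = T.c 0 := by
    show cls G w = cls G ((0 : Γ) : J)
    rw [AddSubgroup.coe_zero, cls_eq_iff, sub_zero]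
    exact hw
  -- a common modulus of the coordinate differences
  have hbase : ∀ φ ∈ H, A.valuation (φ w' - φ 0) ≤ A.valuation ((ℓ : ℕ) : Qb) := by
    intro φ hφ
    obtain ⟨P, hP⟩ := hφ.2 (T.c 0)
    rw [hP w' hcw, hP 0 rfl]
    -- the modulus
    let u : Option (Fin G.g) → Qb := fun o => o.elim ((ℓ : ℕ) : Qb) (fun i => T.τ w' i - T.τ 0 i)
    have hu : ∀ o, A.valuation (u o) < 1 := by
      intro o
      cases o with
      | none => exact hvℓ
      | some i =>
        refine lt_of_le_of_lt (Valuation.map_sub _ _ _) (max_lt ?_ ?_)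
        · exact tau_mem G hc (w' : J) i
        · exact tau_mem G hc ((0 : Γ) : J) i
    obtain ⟨o₀, ho₀⟩ := Finite.exists_max (fun o => A.valuation (u o))
    have hd0 : u o₀ ≠ 0 := by
      intro h0
      have := ho₀ none
      rw [h0, map_zero] at this
      exact hvℓ0 (le_zero_iff.1 this)
    have hdA : u o₀ ∈ A := (A.valuation_le_one_iff _).1 (le_of_lt (hu o₀))
    have hdvd : ∀ i, DvdA A (u o₀) (T.τ w' i - T.τ 0 i) := by
      intro i
      refine dvdA_of_mem hd0 ?_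
      rw [← A.valuation_le_one_iff, map_div₀]
      exact (div_le_one₀ (zero_lt_iff.mpr ((Valuation.ne_zero_iff _).2 hd0))).2 (ho₀ (some i))
    have h1 := aeval_sub_mem P hdA (T.τ_mem w') (T.τ_mem 0) hdvd
    obtain ⟨a, ha, hda⟩ := h1
    have hlt : A.valuation (aeval (T.τ w') P - aeval (T.τ 0) P) < 1 := by
      rw [hda, map_mul]
      calc A.valuation (u o₀) * A.valuation a ≤ A.valuation (u o₀) * 1 :=
            mul_le_mul' le_rfl ((A.valuation_le_one_iff _).2 ha)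
        _ = A.valuation (u o₀) := mul_one _
        _ < 1 := hu o₀
    -- the values lie in `A0`
    have hfw : ∀ σ : IA A, σ • w' = w' := fun σ => Subtype.ext (hfixΓ w w'.2 σ.1)
    have hf0 : ∀ σ : IA A, σ • (0 : Γ) = 0 := fun σ => smul_zero σ
    have hm1 := (mem_fixedRing_iff_mem_A0 A _).1 (T.apply_mem_fixedRing hφ hfw)
    have hm0 := (mem_fixedRing_iff_mem_A0 A _).1 (T.apply_mem_fixedRing hφ hf0)
    rw [hP w' hcw] at hm1
    rw [hP 0 rfl] at hm0
    exact D.valuation_le_of_mem_A0 hℓ A hA ((A0 A).sub_mem hm1 hm0) hlt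
  have harch : ∀ a : Qb, a ≠ 0 → ∃ n : ℕ, A.valuation ((ℓ : ℕ) : Qb) ^ n ≤ A.valuation a :=
    fun a ha => exists_pow_le A hℓ hA hA ha
  have hkey := eq_of_hasComul hint hcomul hℓ hℓ2 hvℓ hvℓ0 harch w' hw'0 hbase
  -- the coordinate functions separate the points
  have hτ : T.τ w' = T.τ 0 := by
    funext i
    have h := hkey (T.indPoly (T.c 0) (X i)) (T.indPoly_mem (T.c 0) (X i))
    rw [T.indPoly_apply_of_eq (X i) hcw, T.indPoly_apply_of_eq (X i) rfl, aeval_X, aeval_X] at h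
    exact h
  have h0 : w' = 0 := T.τ_inj w' 0 hcw hτ
  exact congrArg (fun x : Γ => (x : J)) h0

include hA hc in
/-- **no rational `ℓ`-power torsion in the kernel of reduction** (`ℓ` odd) -/
theorem eq_zero_of_prime_pow_smul (hℓ2 : ℓ ≠ 2) (a : ℕ) {w : J} (hw : w ∈ G.K)
    (hfix : ∀ σ : GQ, σ • w = w) (hℓw : ℓ ^ a • w = 0) : w = 0 := by
  induction a with
  | zero => rwa [pow_zero, one_smul] at hℓw
  | succ a ih =>
    apply ih
    have h1 : ℓ ^ a • w ∈ G.K := G.K.nsmul_mem hw _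
    have h2 : ∀ σ : GQ, σ • (ℓ ^ a • w) = ℓ ^ a • w := by
      intro σ
      have := map_nsmul (DistribSMul.toAddMonoidHom J σ) (ℓ ^ a) w
      simp only [DistribSMul.toAddMonoidHom_apply] at this
      rw [this, hfix σ]
    refine eq_zero_of_prime_smul hA G hc hℓ2 h1 h2 ?_
    rw [← mul_smul, ← pow_succ']
    exact hℓw

end Germ

/-- **(TORS)** -/
theorem torsInjStmt : TorsInjStmt := by
  intro p hp ℓ hℓ hℓp hℓ2 A hA z hz m hm hmz hred
  haveI : Fact ℓ.Prime := ⟨hℓ⟩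
  haveI : NeZero p := ⟨hp.ne_zero⟩
  have hℓN : ¬ ℓ ∣ p := fun h => hℓp ((Nat.prime_dvd_prime_iff_eq hℓ hp).1 h)
  obtain ⟨G, hc, hK⟩ := exists_germ_ker p ℓ hℓN A hA
  -- split `m = ℓ ^ a * m'`
  obtain ⟨a, m', hm', rfl⟩ := Nat.exists_eq_pow_mul_and_not_dvd hm.ne' ℓ hℓ.ne_one
  -- the prime-to-`ℓ` part dies by S18
  have h1 : ℓ ^ a • z = 0 := by
    refine Fermat.Agent.S18.result p hℓN A hA (Fermat.Agent.S37lib.B3.reductionInputsModL p A hℓN hA)
      m' hm' (ℓ ^ a • z) ?_ ?_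
    · rw [← mul_smul, mul_comm]
      exact hmz
    · rw [map_nsmul, hred, smul_zero]
  exact eq_zero_of_prime_pow_smul hA G hc hℓ2 a ((hK z).2 hred) hz h1

end Fermat.Agent.S15lib.Tors

end
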